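import Mathlib
import Fermat.Prelude.Def_AlgebraicCurve_CanonicalDivisor

/-!
# S24 layer (A): basic facts on places (membership via ord, ultrametric, integrally closed)
(helper54)  Stated on the Prelude API `AlgebraicCurve.Place`.
-/

set_option autoImplicit false
set_option linter.style.haveILetI false
set_option linter.unusedSectionVars false

namespace Fermat.Agent.S24.FF

open AlgebraicCurve IsDedekindDomain WithZero

section Basic

variable {K F : Type*} [Field K] [Field F] [Algebra K F] (v : Place K F)

theorem ord_eq_neg_log (f : F) : v.ord f = -log (v.adicValuation f) := rfl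

theorem adicValuation_eq_exp_neg_ord {f : F} (hf : f ≠ 0) :
    v.adicValuation f = exp (-(v.ord f)) := by
  rw [ord_eq_neg_log, neg_neg, exp_log (v.adicValuation_ne_zero hf)]

theorem mem_iff_adicValuation_le_one (f : F) :
    f ∈ v.toValuationSubring ↔ v.adicValuation f ≤ 1 := by
  constructor
  · intro hf
    have := v.adicValuation_coe ⟨f, hf⟩
    simp only at this
    rw [this]
    exact HeightOneSpectrum.intValuation_le_one _ _
  · intro hle
    by_contra hf
    have hf0 : f ≠ 0 := fun h => hf (h ▸ v.toValuationSubring.zero_mem)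
    have hinv : f⁻¹ ∈ v.toValuationSubring := (v.toValuationSubring.mem_or_inv_mem f).resolve_left hf
    have hnu : ¬ IsUnit (⟨f⁻¹, hinv⟩ : v.toValuationSubring) := by
      rintro ⟨u, hu⟩
      apply hf
      have h1 : ((↑u⁻¹ : v.toValuationSubring) : F) = f := by
        have h2 : (u : v.toValuationSubring) * ↑u⁻¹ = 1 := by simp
        have h3 := congrArg Subtype.val h2
        rw [MulMemClass.coe_mul, OneMemClass.coe_one, hu] at h3
        simp only at h3
        field_simp at h3
        exact h3
      rw [← h1]
      exact Subtype.property _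
    have hlt : v.adicValuation (f⁻¹) < 1 := by
      have := v.adicValuation_coe ⟨f⁻¹, hinv⟩
      simp only at this
      rw [this, HeightOneSpectrum.intValuation_lt_one_iff_mem, Place.heightOneSpectrum_asIdeal,
        IsLocalRing.mem_maximalIdeal, mem_nonunits_iff]
      exact hnu
    rw [map_inv₀] at hlt
    have h1 : (1 : ℤᵐ⁰) < v.adicValuation f := by
      have hne := v.adicValuation_ne_zero hf0
      rwa [inv_lt_one₀ (zero_lt_iff.mpr hne)] at hlt
    exact absurd hle (not_le.mpr h1)

theorem mem_iff_ord_nonneg {f : F} (hf : f ≠ 0) :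
    f ∈ v.toValuationSubring ↔ 0 ≤ v.ord f := by
  rw [mem_iff_adicValuation_le_one, adicValuation_eq_exp_neg_ord v hf, ← exp_zero, exp_le_exp]
  omega

theorem mem_of_ord_pos {f : F} (h : 0 < v.ord f) : f ∈ v.toValuationSubring := by
  have hf : f ≠ 0 := by
    rintro rfl
    simp at h
  exact (mem_iff_ord_nonneg v hf).2 h.le

theorem ord_algebraMap (c : K) : v.ord (algebraMap K F c) = 0 := by
  rcases eq_or_ne c 0 with rfl | hc
  · simp
  have h0 : algebraMap K F c ≠ 0 := by simpa using hc
  have h1 : 0 ≤ v.ord (algebraMap K F c) :=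
    (mem_iff_ord_nonneg v h0).1 (v.algebraMap_mem' c)
  have h2 : 0 ≤ v.ord (algebraMap K F c)⁻¹ := by
    rw [← map_inv₀]
    exact (mem_iff_ord_nonneg v (by simpa using hc)).1 (v.algebraMap_mem' c⁻¹)
  rw [v.ord_inv] at h2
  omega

theorem min_ord_le_ord_add {f g : F} (hf : f ≠ 0) (hg : g ≠ 0) (hfg : f + g ≠ 0) :
    min (v.ord f) (v.ord g) ≤ v.ord (f + g) := by
  have h := v.adicValuation.map_add f g
  rw [adicValuation_eq_exp_neg_ord v hf, adicValuation_eq_exp_neg_ord v hg,
    adicValuation_eq_exp_neg_ord v hfg] at h
  rcases le_max_iff.1 h with h | h <;> rw [exp_le_exp] at h <;> omega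

theorem ord_add_eq_of_lt {f g : F} (hf : f ≠ 0) (hg : g ≠ 0) (h : v.ord f < v.ord g) :
    v.ord (f + g) = v.ord f := by
  have hfg : f + g ≠ 0 := by
    intro h0
    have : g = -f := by linear_combination h0
    rw [this] at h
    have hneg : v.ord (-f) = v.ord f := by
      simp [ord_eq_neg_log]
    omega
  have h1 := min_ord_le_ord_add v hf hg hfg
  have hnegg : -g ≠ 0 := neg_ne_zero.mpr hg
  have h2 := min_ord_le_ord_add v hfg hnegg (by simpa using hf)
  have hneg : v.ord (-g) = v.ord g := by
    simp [ord_eq_neg_log]
  rw [add_neg_cancel_right, hneg] at h2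
  rw [min_eq_left h.le] at h1
  rcases le_total (v.ord (f + g)) (v.ord g) with h3 | h3
  · rw [min_eq_left h3] at h2; omega
  · rw [min_eq_right h3] at h2; omega

theorem ord_neg (f : F) : v.ord (-f) = v.ord f := by
  simp [ord_eq_neg_log]

/-- The valuation ring of a place is integrally closed in `F`. -/
theorem mem_of_isIntegral {R : Type*} [CommRing R] [Algebra R F]
    (h : ∀ r : R, algebraMap R F r ∈ v.toValuationSubring) {b : F} (hb : IsIntegral R b) :
    b ∈ v.toValuationSubring := by
  let φ : R →+* v.toValuationSubring :=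
    (algebraMap R F).codRestrict v.toValuationSubring.toSubring h
  letI : Algebra R v.toValuationSubring := φ.toAlgebra
  haveI : IsScalarTower R v.toValuationSubring F := IsScalarTower.of_algebraMap_eq fun _ => rfl
  have hb' : IsIntegral v.toValuationSubring b := hb.tower_top
  obtain ⟨y, hy⟩ := (IsIntegrallyClosed.isIntegral_iff (R := v.toValuationSubring) (K := F)).1 hb'
  rw [← hy]
  exact y.2

end Basic

end Fermat.Agent.S24.FF
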