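import Mathlib
import Fermat.Prelude.Def_AlgebraicCurve_CanonicalDivisor
import Fermat.Agent.S24.FF.PlaceBasic

/-!
# S24 layer (A): places of Frac(R) containing a Dedekind domain R <-> height one primes; fundamental identity over an algebraically closed field
(helper54)  Stated on the Prelude API `AlgebraicCurve.Place`.
-/

set_option autoImplicit false
set_option linter.style.haveILetI false
set_option linter.unusedSectionVars false

namespace Fermat.Agent.S24.FF

open AlgebraicCurve IsDedekindDomain WithZero

section General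

variable {K F : Type*} [Field K] [Field F] [Algebra K F]
variable {R : Type*} [CommRing R] [IsDedekindDomain R] [Algebra R F] [IsFractionRing R F]
  [Algebra K R] [IsScalarTower K R F]

/-- A place whose valuation ring contains the Dedekind domain `R` (with fraction field `F`)
comes from a height one prime of `R`. -/
theorem exists_heightOneSpectrum_of_le (v : Place K F)
    (h : ∀ r : R, algebraMap R F r ∈ v.toValuationSubring) :
    ∃ w : HeightOneSpectrum R, Place.ofHeightOneSpectrum (K := K) w = v := by
  classical
  let φ : R →+* v.toValuationSubring :=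
    (algebraMap R F).codRestrict v.toValuationSubring.toSubring h
  have hφ : ∀ r, ((φ r : v.toValuationSubring) : F) = algebraMap R F r := fun r => rfl
  let P : Ideal R := (IsLocalRing.maximalIdeal v.toValuationSubring).comap φ
  have hPprime : P.IsPrime := Ideal.comap_isPrime φ _
  have hPne : P ≠ ⊥ := by
    intro hP
    apply v.ne_top'
    refine SetLike.ext fun x => ⟨fun _ => ValuationSubring.mem_top x, fun _ => ?_⟩
    obtain ⟨a, b, hb, rfl⟩ := IsFractionRing.div_surjective (A := R) x
    have hb0 : b ≠ 0 := nonZeroDivisors.ne_zero hb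
    have hbP : b ∉ P := by rw [hP]; simpa using hb0
    have hunit : IsUnit (φ b) := by
      by_contra hnu
      exact hbP (by
        show φ b ∈ IsLocalRing.maximalIdeal _
        rwa [IsLocalRing.mem_maximalIdeal, mem_nonunits_iff])
    obtain ⟨u, hu⟩ := hunit
    have hinv : (algebraMap R F b)⁻¹ = ((↑u⁻¹ : v.toValuationSubring) : F) := by
      rw [inv_eq_iff_eq_inv]
      have h1 : (u : v.toValuationSubring) * ↑u⁻¹ = 1 := by simp
      have h2 := congrArg (Subtype.val) h1
      simp only [MulMemClass.coe_mul, OneMemClass.coe_one] at h2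
      rw [hu, hφ] at h2
      exact eq_inv_of_mul_eq_one_left h2
    rw [div_eq_mul_inv, hinv]
    exact v.toValuationSubring.mul_mem _ _ (h a) (Subtype.property _)
  let w : HeightOneSpectrum R := ⟨P, hPprime, hPne⟩
  refine ⟨w, ?_⟩
  apply Place.ext
  rw [Place.ofHeightOneSpectrum_toValuationSubring,
    ← HeightOneSpectrum.valuationSubringAtPrime_eq_valuationSubring]
  refine ValuationSubring.eq_of_le_of_ne_top _ ?_ v.ne_top'
  rintro x ⟨a, s, hs, rfl⟩
  have hsP : s ∉ P := hs
  have hunit : IsUnit (φ s) := by
    by_contra hnu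
    exact hsP (by
      show φ s ∈ IsLocalRing.maximalIdeal _
      rwa [IsLocalRing.mem_maximalIdeal, mem_nonunits_iff])
  obtain ⟨u, hu⟩ := hunit
  have hinv : (algebraMap R F s)⁻¹ = ((↑u⁻¹ : v.toValuationSubring) : F) := by
    rw [inv_eq_iff_eq_inv]
    have h1 : (u : v.toValuationSubring) * ↑u⁻¹ = 1 := by simp
    have h2 := congrArg (Subtype.val) h1
    simp only [MulMemClass.coe_mul, OneMemClass.coe_one] at h2
    rw [hu, hφ] at h2
    exact eq_inv_of_mul_eq_one_left h2
  show algebraMap R F a * (algebraMap R F s)⁻¹ ∈ v.toValuationSubring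
  rw [hinv]
  exact v.toValuationSubring.mul_mem _ _ (h a) (Subtype.property _)

theorem withZero_lt_one_iff_le_exp_neg_one {x : ℤᵐ⁰} : x < 1 ↔ x ≤ exp (-1 : ℤ) := by
  rcases eq_or_ne x 0 with rfl | hx
  · simp
  · rw [← exp_log hx, ← exp_zero, exp_lt_exp, exp_le_exp]
    omega

/-- The `ord` of the place attached to a height one prime is minus the log of the adic
valuation. -/
theorem ord_ofHeightOneSpectrum (w : HeightOneSpectrum R) (f : F) :
    (Place.ofHeightOneSpectrum (K := K) (F := F) w).ord f = -log (w.valuation F f) := by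
  classical
  set v := Place.ofHeightOneSpectrum (K := K) (F := F) w with hv
  rcases eq_or_ne f 0 with rfl | hf
  · simp
  have hmem : ∀ y : F, y ∈ v.toValuationSubring ↔ w.valuation F y ≤ 1 := fun y => by
    rw [hv, Place.ofHeightOneSpectrum_toValuationSubring, Valuation.mem_valuationSubring_iff]
  obtain ⟨π, hπ⟩ := w.valuation_exists_uniformizer F
  have hπ0 : π ≠ 0 := by
    rintro rfl
    rw [map_zero] at hπ
    exact WithZero.coe_ne_zero hπ.symm
  have hπmem : π ∈ v.toValuationSubring := by
    rw [hmem, hπ, ← exp_zero, exp_le_exp]; omega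
  let πv : v.toValuationSubring := ⟨π, hπmem⟩
  -- units have valuation one
  have hunit : ∀ u : v.toValuationSubringˣ, w.valuation F ((u : v.toValuationSubring) : F) = 1 := by
    intro u
    have h1 : w.valuation F ((u : v.toValuationSubring) : F) ≤ 1 := (hmem _).1 (Subtype.property _)
    have h2 : w.valuation F (((↑u⁻¹ : v.toValuationSubring)) : F) ≤ 1 :=
      (hmem _).1 (Subtype.property _)
    have h3 : ((u : v.toValuationSubring) : F) * ((↑u⁻¹ : v.toValuationSubring) : F) = 1 := by
      have h1 : (u : v.toValuationSubring) * ↑u⁻¹ = 1 := by simp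
      have h2 := congrArg (Subtype.val) h1
      rwa [MulMemClass.coe_mul, OneMemClass.coe_one] at h2
    have h4 := congrArg (w.valuation F) h3
    rw [map_mul, map_one] at h4
    exact le_antisymm h1 (by
      by_contra hlt
      rw [not_le] at hlt
      have : w.valuation F ((u : v.toValuationSubring) : F) *
          w.valuation F ((↑u⁻¹ : v.toValuationSubring) : F) < 1 := by
        calc _ ≤ w.valuation F ((u : v.toValuationSubring) : F) * 1 := by gcongr
          _ < 1 := by simpa using hlt
      exact absurd h4 (ne_of_lt this))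
  -- π is irreducible in the valuation ring
  have hirr : Irreducible πv := by
    rw [IsDiscreteValuationRing.irreducible_iff_uniformizer]
    apply le_antisymm
    · intro y hy
      rw [Ideal.mem_span_singleton']
      have hynu : ¬ IsUnit y := by
        rwa [IsLocalRing.mem_maximalIdeal, mem_nonunits_iff] at hy
      have hylt : w.valuation F (y : F) < 1 := by
        have hle : w.valuation F (y : F) ≤ 1 := (hmem _).1 y.2
        refine lt_of_le_of_ne hle fun heq => hynu ?_
        have hy0 : (y : F) ≠ 0 := by
          intro h0; rw [h0, map_zero] at heq; exact zero_ne_one heq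
        have hinv : (y : F)⁻¹ ∈ v.toValuationSubring := by
          rw [hmem, map_inv₀, heq, inv_one]
        refine ⟨⟨y, ⟨(y : F)⁻¹, hinv⟩, ?_, ?_⟩, rfl⟩ <;>
        · apply Subtype.ext
          simp [hy0]
      rw [withZero_lt_one_iff_le_exp_neg_one] at hylt
      have hq : (y : F) * π⁻¹ ∈ v.toValuationSubring := by
        rw [hmem, map_mul, map_inv₀, hπ]
        calc w.valuation F (y : F) * (exp (-1 : ℤ))⁻¹ ≤ exp (-1 : ℤ) * (exp (-1 : ℤ))⁻¹ := by
              gcongr
          _ = 1 := mul_inv_cancel₀ (by simp)
      refine ⟨⟨(y : F) * π⁻¹, hq⟩, ?_⟩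
      apply Subtype.ext
      simp [πv, hπ0]
    · rw [Ideal.span_singleton_le_iff_mem, IsLocalRing.mem_maximalIdeal, mem_nonunits_iff]
      rintro ⟨u, hu⟩
      have := hunit u
      rw [hu] at this
      simp only [πv] at this
      rw [hπ] at this
      have h01 : (exp (-1 : ℤ) : ℤᵐ⁰) = exp (0 : ℤ) := by rw [this, exp_zero]
      rw [exp_inj] at h01
      omega
  obtain ⟨u, hu⟩ := v.exists_unit_mul_zpow hf hirr
  have hval : w.valuation F f = exp (-(v.ord f)) := by
    conv_lhs => rw [hu]
    rw [map_mul, hunit u, one_mul, map_zpow₀]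
    simp only [πv]
    rw [hπ, ← exp_zsmul]
    simp
  rw [hval, log_exp, neg_neg]

theorem ofHeightOneSpectrum_injective :
    Function.Injective (Place.ofHeightOneSpectrum (K := K) (F := F) (R := R)) := by
  intro w w' h
  have h1 : (w.valuation F).valuationSubring = (w'.valuation F).valuationSubring := by
    have := congrArg Place.toValuationSubring h
    simpa using this
  exact HeightOneSpectrum.eq_of_valuation_isEquiv_valuation
    ((Valuation.isEquiv_iff_valuationSubring _ _).2 h1)

theorem algebraMap_mem_ofHeightOneSpectrum (w : HeightOneSpectrum R) (r : R) :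
    algebraMap R F r ∈ (Place.ofHeightOneSpectrum (K := K) (F := F) w).toValuationSubring := by
  rw [Place.ofHeightOneSpectrum_toValuationSubring, Valuation.mem_valuationSubring_iff]
  exact w.valuation_le_one r

theorem ord_ofHeightOneSpectrum_algebraMap (w : HeightOneSpectrum R) {r : R} (hr : r ≠ 0) :
    (Place.ofHeightOneSpectrum (K := K) (F := F) w).ord (algebraMap R F r)
      = (multiplicity w.asIdeal (Ideal.span {r}) : ℤ) := by
  rw [ord_ofHeightOneSpectrum, HeightOneSpectrum.valuation_of_algebraMap,
    w.intValuation_eq_exp_neg_multiplicity hr, log_exp, neg_neg]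

end General

section Fiber

variable {K F : Type*} [Field K] [IsAlgClosed K] [Field F] [Algebra K F]
variable {A B : Type*} [CommRing A] [IsDedekindDomain A] [CommRing B] [IsDedekindDomain B]
  [Algebra K A] [Algebra A B] [Algebra K B] [IsScalarTower K A B]
  [Algebra B F] [Algebra A F] [IsScalarTower A B F] [IsScalarTower K B F]
  [IsFractionRing B F] [Module.Finite A B] [Module.IsTorsionFree A B]

theorem inertiaDeg_eq_one_of_isAlgClosed (p : Ideal A) [p.IsMaximal]
    (hK : Function.Surjective (fun c : K => Ideal.Quotient.mk p (algebraMap K A c)))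
    (q : Ideal B) [q.IsPrime] [q.LiesOver p] : q.inertiaDeg A = 1 := by
  haveI : q.IsMaximal := Ideal.IsMaximal.of_liesOver_isMaximal q p
  rw [Ideal.inertiaDeg_eq_of_isMaximal p q]
  letI : Field (A ⧸ p) := Ideal.Quotient.field p
  letI : Field (B ⧸ q) := Ideal.Quotient.field q
  -- K → B/q is bijective
  haveI : Module.Finite (A ⧸ p) (B ⧸ q) := inferInstance
  haveI : Algebra.IsIntegral K (B ⧸ q) := by
    refine ⟨fun y => ?_⟩
    have hy : IsIntegral (A ⧸ p) y := Algebra.IsIntegral.isIntegral y
    obtain ⟨P, hP, hPy⟩ := hy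
    -- lift the polynomial along K → A/p (surjective)
    have hsurj : Function.Surjective (algebraMap K (A ⧸ p)) := by
      intro z
      obtain ⟨c, hc⟩ := hK z
      exact ⟨c, by rw [IsScalarTower.algebraMap_apply K A (A ⧸ p)]; exact hc⟩
    obtain ⟨Q, hQ, hQm⟩ := Polynomial.lifts_and_degree_eq_and_monic
      ((Polynomial.mem_lifts P).2 (Polynomial.map_surjective _ hsurj P)) hP
    refine ⟨Q, hQm.2, ?_⟩
    rw [← hQ] at hPy
    rwa [Polynomial.eval₂_map, ← IsScalarTower.algebraMap_eq] at hPy
  have hbij : Function.Bijective (algebraMap K (B ⧸ q)) :=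
    IsAlgClosed.algebraMap_bijective_of_isIntegral
  -- hence A/p → B/q is surjective, so finrank = 1
  have hsurj : Function.Surjective (algebraMap (A ⧸ p) (B ⧸ q)) := by
    intro z
    obtain ⟨c, rfl⟩ := hbij.2 z
    exact ⟨algebraMap K (A ⧸ p) c, by rw [← IsScalarTower.algebraMap_apply]⟩
  have : Module.finrank (A ⧸ p) (B ⧸ q) ≤ 1 := by
    have := finrank_le_one (R := A ⧸ p) (M := B ⧸ q) (1 : B ⧸ q) (fun w => by
      obtain ⟨c, rfl⟩ := hsurj w
      exact ⟨c, by rw [Algebra.smul_def, mul_one]⟩)
    exact this
  have hpos : 0 < Module.finrank (A ⧸ p) (B ⧸ q) := Module.finrank_pos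
  omega


theorem exists_finset_sum_ord_eq_finrank (a : A) (ha : a ≠ 0)
    (hmax : (Ideal.span {a}).IsMaximal)
    (hK : Function.Surjective
      (fun c : K => Ideal.Quotient.mk (Ideal.span {a}) (algebraMap K A c))) :
    ∃ s : Finset (Place K F),
      (∀ v : Place K F, v ∈ s ↔
        ((∀ b : B, algebraMap B F b ∈ v.toValuationSubring) ∧ 0 < v.ord (algebraMap A F a))) ∧
      ∑ v ∈ s, v.ord (algebraMap A F a) = Module.finrank A B := by
  classical
  set p : Ideal A := Ideal.span {a} with hp
  have hp0 : p ≠ ⊥ := by
    rw [hp, Ne, Ideal.span_singleton_eq_bot]; exact ha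
  have hinj : Function.Injective (algebraMap A B) := FaithfulSMul.algebraMap_injective A B
  have hab : algebraMap A B a ≠ 0 := fun h => ha (hinj (by rw [h, map_zero]))
  have hmap : p.map (algebraMap A B) = Ideal.span {algebraMap A B a} := by
    rw [hp, Ideal.map_span, Set.image_singleton]
  have hmap0 : p.map (algebraMap A B) ≠ ⊥ := by
    rw [hmap, Ne, Ideal.span_singleton_eq_bot]; exact hab
  haveI : Fintype (p.primesOver B) := (Algebra.QuasiFinite.finite_primesOver p).fintype
  have key := Ideal.sum_ramification_inertia_eq_finrank p B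
  -- the height one prime attached to a prime over `p`
  have hq0 : ∀ q : p.primesOver B, q.1 ≠ ⊥ := fun q => by
    haveI := q.2.1
    haveI := q.2.2
    exact Ideal.ne_bot_of_liesOver_of_ne_bot hp0 q.1
  let W : p.primesOver B → HeightOneSpectrum B := fun q => ⟨q.1, q.2.1, hq0 q⟩
  let V : p.primesOver B → Place K F := fun q => Place.ofHeightOneSpectrum (K := K) (F := F) (W q)
  have hVinj : Function.Injective V := by
    intro q q' h
    have := ofHeightOneSpectrum_injective h
    apply Subtype.ext
    exact congrArg HeightOneSpectrum.asIdeal this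
  have hord : ∀ q : p.primesOver B, (V q).ord (algebraMap A F a) = (q.1.ramificationIdx A : ℤ) := by
    intro q
    haveI := q.2.1
    haveI := q.2.2
    rw [IsScalarTower.algebraMap_apply A B F, ord_ofHeightOneSpectrum_algebraMap _ hab,
      Ideal.IsDedekindDomain.ramificationIdx_eq_multiplicity p q.1 hmap0, hmap]
  have hinert : ∀ q : p.primesOver B, q.1.inertiaDeg A = 1 := by
    intro q
    haveI := q.2.1
    haveI := q.2.2
    exact inertiaDeg_eq_one_of_isAlgClosed p hK q.1
  refine ⟨Finset.univ.image V, ?_, ?_⟩
  · intro v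
    simp only [Finset.mem_image, Finset.mem_univ, true_and]
    constructor
    · rintro ⟨q, rfl⟩
      refine ⟨fun b => algebraMap_mem_ofHeightOneSpectrum _ b, ?_⟩
      rw [hord q]
      haveI := q.2.1
      exact_mod_cast Ideal.ramificationIdx_pos q.1 A
    · rintro ⟨hB, hpos⟩
      obtain ⟨w, rfl⟩ := exists_heightOneSpectrum_of_le (R := B) v hB
      have hmem : algebraMap A B a ∈ w.asIdeal := by
        rw [← HeightOneSpectrum.valuation_lt_one_iff_mem (K := F)]
        show w.valuation F (algebraMap B F (algebraMap A B a)) < 1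
        rw [← IsScalarTower.algebraMap_apply A B F]
        rw [ord_ofHeightOneSpectrum] at hpos
        have hne : w.valuation F (algebraMap A F a) ≠ 0 := by
          rw [Ne, map_eq_zero, IsScalarTower.algebraMap_apply A B F]
          exact fun h => hab ((IsFractionRing.injective B F) (by rw [h, map_zero]))
        rw [← exp_log hne, ← exp_zero, exp_lt_exp]
        omega
      have hle : p ≤ w.asIdeal.comap (algebraMap A B) := by
        rw [hp, Ideal.span_singleton_le_iff_mem]
        exact hmem
      have hcomap_ne : w.asIdeal.comap (algebraMap A B) ≠ ⊤ :=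
        (Ideal.comap_isPrime (algebraMap A B) w.asIdeal).ne_top
      have heq : p = w.asIdeal.comap (algebraMap A B) := hmax.eq_of_le hcomap_ne hle
      refine ⟨⟨w.asIdeal, w.isPrime, ⟨heq⟩⟩, ?_⟩
      rfl
  · rw [Finset.sum_image (fun q _ q' _ h => hVinj h)]
    rw [← key]
    push_cast
    refine Finset.sum_congr rfl fun q _ => ?_
    rw [hord q, hinert q]
    simp

end Fiber

end Fermat.Agent.S24.FF
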