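import Mathlib
import Fermat.Prelude.Def_AlgebraicCurve_CanonicalDivisor
import Fermat.Agent.S24.FF.PlaceDedekind

/-!
# S24 layer (A): zeros of a transcendental element: finite, orders sum to [F : K(x)]
(helper54)  Stated on the Prelude API `AlgebraicCurve.Place`.
-/

set_option autoImplicit false
set_option linter.style.haveILetI false
set_option linter.unusedSectionVars false

namespace Fermat.Agent.S24.FF

open AlgebraicCurve IsDedekindDomain WithZero

section Adjoin

open IntermediateField algebraAdjoinAdjoin Polynomial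

variable {K F : Type*} [Field K] [Field F] [Algebra K F] (x : F)

/-- The generator `x` as an element of `Algebra.adjoin K {x}`. -/
def genA : Algebra.adjoin K {x} := ⟨x, Algebra.self_mem_adjoin_singleton K x⟩

@[simp] theorem coe_genA : ((genA (K := K) x : Algebra.adjoin K {x}) : F) = x := rfl

theorem exists_eq_aeval_genA (a : Algebra.adjoin K {x}) :
    ∃ P : K[X], a = aeval (genA (K := K) x) P := by
  obtain ⟨a, ha⟩ := a
  have ha' := ha
  rw [Algebra.adjoin_singleton_eq_range_aeval] at ha'
  obtain ⟨P, hP⟩ := ha'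
  refine ⟨P, Subtype.ext ?_⟩
  rw [genA, Polynomial.coe_aeval_mk_apply]
  exact hP.symm

theorem exists_sub_mem_span_genA (a : Algebra.adjoin K {x}) :
    ∃ c : K, a - algebraMap K _ c ∈ Ideal.span {genA (K := K) x} := by
  obtain ⟨P, rfl⟩ := exists_eq_aeval_genA x a
  refine ⟨P.coeff 0, ?_⟩
  rw [Ideal.mem_span_singleton']
  refine ⟨aeval (genA (K := K) x) P.divX, ?_⟩
  have h := congrArg (aeval (genA (K := K) x)) (Polynomial.divX_mul_X_add P)
  simp only [map_add, map_mul, aeval_X, aeval_C] at h
  rw [← h]
  ring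

theorem aeval_genA_injective (hx : Transcendental K x) :
    Function.Injective (aeval (R := K) (genA (K := K) x)) := by
  intro P Q h
  have h' := congrArg (Subtype.val) h
  rw [genA, Polynomial.coe_aeval_mk_apply, Polynomial.coe_aeval_mk_apply] at h'
  exact (transcendental_iff_injective.1 hx) h'

theorem genA_ne_zero (hx : Transcendental K x) : genA (K := K) x ≠ 0 := by
  intro h
  have := congrArg Subtype.val h
  simp only [coe_genA, ZeroMemClass.coe_zero] at this
  rw [this] at hx
  exact hx (isAlgebraic_zero)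

theorem span_genA_ne_top (hx : Transcendental K x) :
    Ideal.span {genA (K := K) x} ≠ ⊤ := by
  rw [Ne, Ideal.span_singleton_eq_top]
  rintro ⟨u, hu⟩
  obtain ⟨Q, hQ⟩ := exists_eq_aeval_genA x (↑u⁻¹ : Algebra.adjoin K {x})
  have h1 : (genA (K := K) x) * ↑u⁻¹ = 1 := by rw [← hu]; simp
  rw [hQ] at h1
  have h2 : aeval (genA (K := K) x) (X * Q) = aeval (genA (K := K) x) (1 : K[X]) := by
    simp only [map_mul, aeval_X, map_one]
    exact h1
  have h3 := aeval_genA_injective x hx h2
  have h4 := congrArg (fun P => Polynomial.coeff P 0) h3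
  simp at h4

theorem surjective_mk_span_genA :
    Function.Surjective (fun c : K =>
      Ideal.Quotient.mk (Ideal.span {genA (K := K) x}) (algebraMap K _ c)) := by
  intro z
  obtain ⟨a, rfl⟩ := Ideal.Quotient.mk_surjective z
  obtain ⟨c, hc⟩ := exists_sub_mem_span_genA x a
  refine ⟨c, ?_⟩
  symm
  exact (Ideal.Quotient.mk_eq_mk_iff_sub_mem _ _).2 hc

theorem span_genA_isMaximal (hx : Transcendental K x) :
    (Ideal.span {genA (K := K) x}).IsMaximal := by
  rw [Ideal.isMaximal_iff]
  refine ⟨fun h => span_genA_ne_top x hx ((Ideal.eq_top_iff_one _).2 h), ?_⟩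
  intro J a hIJ haI haJ
  obtain ⟨c, hc⟩ := exists_sub_mem_span_genA x a
  have hc0 : c ≠ 0 := by
    rintro rfl
    rw [map_zero, sub_zero] at hc
    exact haI hc
  have h1 : algebraMap K (Algebra.adjoin K {x}) c ∈ J := by
    have : algebraMap K (Algebra.adjoin K {x}) c = a - (a - algebraMap K _ c) := by ring
    rw [this]
    exact J.sub_mem haJ (hIJ hc)
  have h2 : (1 : Algebra.adjoin K {x}) = algebraMap K _ c⁻¹ * algebraMap K _ c := by
    rw [← map_mul, inv_mul_cancel₀ hc0, map_one]
  rw [h2]
  exact J.mul_mem_left _ h1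

theorem isPrincipalIdealRing_adjoin (hx : Transcendental K x) :
    IsPrincipalIdealRing (Algebra.adjoin K {x}) :=
  IsPrincipalIdealRing.of_surjective
    (Polynomial.algEquivOfTranscendental K x hx).toRingEquiv.toRingHom
    (Polynomial.algEquivOfTranscendental K x hx).surjective

/-- **Zeros of `x`**: the places where `x` has positive order form a finite set, and the orders
sum to the degree `[F : K(x)]`. -/
theorem exists_finset_sum_ord_pos [IsAlgClosed K] (hx : Transcendental K x)
    [FiniteDimensional K⟮x⟯ F] [Algebra.IsSeparable K⟮x⟯ F] :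
    ∃ s : Finset (Place K F), (∀ v : Place K F, v ∈ s ↔ 0 < v.ord x) ∧
      ∑ v ∈ s, v.ord x = Module.finrank K⟮x⟯ F := by
  haveI := isPrincipalIdealRing_adjoin x hx
  haveI : IsDedekindDomain (integralClosure (Algebra.adjoin K {x}) F) :=
    integralClosure.isDedekindDomain (Algebra.adjoin K {x}) K⟮x⟯ F
  haveI : IsFractionRing (integralClosure (Algebra.adjoin K {x}) F) F :=
    integralClosure.isFractionRing_of_finite_extension K⟮x⟯ F
  haveI : Module.Finite (Algebra.adjoin K {x}) (integralClosure (Algebra.adjoin K {x}) F) :=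
    IsIntegralClosure.finite (Algebra.adjoin K {x}) K⟮x⟯ F _
  obtain ⟨s, hs, hsum⟩ := exists_finset_sum_ord_eq_finrank (K := K) (F := F)
    (A := Algebra.adjoin K {x}) (B := integralClosure (Algebra.adjoin K {x}) F)
    (genA (K := K) x) (genA_ne_zero x hx) (span_genA_isMaximal x hx) (surjective_mk_span_genA x)
  have hgen : algebraMap (Algebra.adjoin K {x}) F (genA (K := K) x) = x := rfl
  rw [hgen] at hsum
  refine ⟨s, fun v => ?_, ?_⟩
  · rw [hs v, hgen]
    refine ⟨fun h => h.2, fun h => ⟨?_, h⟩⟩
    have hxmem : x ∈ v.toValuationSubring := mem_of_ord_pos v h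
    -- `K[x] ⊆ O_v`
    let Ov : Subalgebra K F :=
      { v.toValuationSubring.toSubring with algebraMap_mem' := v.algebraMap_mem' }
    have hA : Algebra.adjoin K {x} ≤ Ov := Algebra.adjoin_le (by
      rintro y hy
      rw [Set.mem_singleton_iff] at hy
      rw [hy]
      exact hxmem)
    intro b
    refine mem_of_isIntegral v (R := Algebra.adjoin K {x}) (fun r => hA r.2) ?_
    exact b.2
  · rw [hsum, IsFractionRing.finrank_eq (Algebra.adjoin K {x}) K⟮x⟯
      (integralClosure (Algebra.adjoin K {x}) F) F]

end Adjoin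

end Fermat.Agent.S24.FF
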